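import Fermat.Agent.Ribet.H884.SlopeS1
import Fermat.Agent.Ribet.H52.ElocFrey
import Fermat.Agent.Ribet.H375.ELOCOrdFinal
import Fermat.Agent.Ribet.H823.EmbedWFinal
import Fermat.Agent.Ribet.H704.Final
import Fermat.Agent.Ribet.H583.NonEisenstein
import Fermat.Agent.Ribet.H404.R3S
import Fermat.Agent.Ribet.H764.TransportS29
import Fermat.Agent.S29
import Fermat.Agent.S42

/-!
# Row 38 (S39 | S40 | S44): the frozen statements from the WALL-p leaves ALONE
(row-lead helper943)

Every input of the chains `H944.Wall.S44_of_wall` / `H944.Wall.S40_of_wall` except the wall at `p`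
is closed here from landed, unconditional pieces:

* BLR / BLR-W  : `H823.embed`, `H823.embedW` (Eichler-Shimura on the S18 hub, `M4a`, `M4b`);
* Places       : `H584.places`;   NMT : `H704.notMultiplicativeType`;   NE : `H583.nonEisenstein583`;
* R3S          : `H404.eigenformOfOccursAway`;
* R3' / R3'-W  : `H764.almostAllToWitness_of_S42` on `S42.result`,
                 `H764.almostAllToWitnessW_of_S29` on `S29.result`;
* ELOC-Frey    : `H52.wallFrey_of_filtration5_h52`;   ELOC-ord-good, NMT-W, NE-W :
                 `H375.wallGood_of_atPFiltration`;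
* W-DEG, (S1)  : `H801` (inside `H944.Wall.atPFiltrationFor_of`), `H884.s1`.

So
    `S44_of_filtration5 : AtPFiltration5Statement → S44Statement`
    `S40_of_filtration  : AtPFiltrationStatement  → S40Statement`
    `S44_of_targets5    : WallTargets5Statement   → S44Statement`
    `S44_of_leaves      : S2 → ResField → DlogOut → R3P → EisSlope → S44Statement`
(the five open leaves of `H884/SlopeSpec.lean`).
-/

set_option autoImplicit false

namespace Fermat.Agent.Ribet.H943.Final

open Fermat.Agent.Ribet Fermat.Agent.Ribet.Spec Fermat.Agent.Ribet.H944.Wall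

/-- (R3') Frey form, unconditional. -/
theorem almostAllToWitness : AlmostAllToWitnessStatement :=
  H764.almostAllToWitness_of_S42 fun P M hM => Fermat.Agent.S42.result P M hM

/-- (R3'-W), unconditional. -/
theorem almostAllToWitnessW : AlmostAllToWitnessWStatement :=
  H764.almostAllToWitnessW_of_S29 fun hg _ hp _ _ _ φ => Fermat.Agent.S29.result hg hp φ

/-- **S44 from the wall at `p` (Frey form) alone.** -/
theorem S44_of_wallFrey (hWall : WallFreyStatement) : S44Statement :=
  S44_of_wall H823.embed hWall H583.nonEisenstein583 H404.eigenformOfOccursAway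
    almostAllToWitness

/-- **S40 from the wall at `p` (good reduction form) alone.** -/
theorem S40_of_wallGood (hWall : WallGoodStatement) : S40Statement :=
  S40_of_wall H823.embedW hWall H404.eigenformOfOccursAway almostAllToWitnessW

/-- **S44 from the at-`p` filtration package (`p ≥ 5`) alone.** -/
theorem S44_of_filtration5 (hF : AtPFiltration5Statement) : S44Statement :=
  S44_of_wallFrey (H52.wallFrey_of_filtration5_h52 H584.places hF H704.notMultiplicativeType)

/-- **S40 from the at-`p` filtration package (all odd `p`) alone.** -/
theorem S40_of_filtration (hF : AtPFiltrationStatement) : S40Statement :=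
  S40_of_wallGood (H375.wallGood_of_atPFiltration hF)

/-- **S44 from the four targets (`p ≥ 5`).** -/
theorem S44_of_targets5 (hT : WallTargets5Statement) : S44Statement :=
  S44_of_filtration5 (atPFiltration5_of_targets hT)

/-- **S40 from the four targets (all odd `p`).** -/
theorem S40_of_targets (hT : WallTargetsStatement) : S40Statement :=
  S40_of_filtration (atPFiltration_of_targets hT)

/-- **S44 from the five open leaves of `H884/SlopeSpec.lean`** (`(S1)` is `H884.s1`). -/
theorem S44_of_leaves (h2 : H884.S2Statement) (hR : H884.ResFieldStatement)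
    (hD : H884.DlogOutStatement) (h3 : H764.I3.R3PStatement) (hE : H884.EisSlopeStatement) :
    S44Statement :=
  S44_of_targets5 (H884.wallTargets5_of H884.s1 h2 hR hD h3 hE)

end Fermat.Agent.Ribet.H943.Final
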