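import Fermat.Agent.Ribet.H943.Final
import Fermat.Agent.Ribet.H940.R3P5
import Fermat.Agent.Ribet.H376.DlogOut
import Fermat.Agent.Ribet.H224.AlgPFinal
import Fermat.Agent.Ribet.H912.S2G
import Fermat.Agent.Ribet.H884.EisAt

/-!
# Row 38 (S44): the frozen statement from the TWO targets still open (row-lead helper943)

Plugged in (all landed, unconditional): the row inputs of `H943/Final.lean`, (S1) `H884.s1`,
I2 `H376.dlogOut`, I3 at the residue fields `H940.r3p5` (INC-AN, INC-RED, DIMK, LOGHOL),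
ALG-p `H224.algP_unconditional` and the S2 glue `H912.s2For_of_algPG_ncx`.

## Frontier
    S44_of_open     : S2Statement5 → EisSlopeStatement → S44Statement
    S44_of_ncx      : NCX5Statement → EisSlopeStatement → S44Statement
    S44_of_frontier : Dict5Statement → NC5Statement → EisSlopeStatement → S44Statement
    S44_of_leaves5  : Dict5Statement → NC5Statement → H704.CoreOut.CoreOutNEStatement →
                        H884.CuspPurity5Statement → S44Statement
* (S2) is only needed for `p ≥ 5` (`S2Statement5`; `H884.S2Statement` implies it);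
  its open leaves are DICT (`H103.S2.DictFor`) and NC (`H103.S2.NCFor`);
* (S4) = `H884.EisSlopeStatement`; official assembly `H704.CoreOut.eisSlope_of_coreOutNE`
  / `H884.eisSlope_of_frontier5` (open leaves: CORE-OUT = TAME + WILD, CUSP for `p ≥ 5`).
-/

set_option autoImplicit false

namespace Fermat.Agent.Ribet.H943.Final2

open Fermat.Agent.Ribet Fermat.Agent.Ribet.Spec Fermat.Agent.Ribet.H944.Wall
open Fermat.Agent.Ribet.H884
open ModularCurve

/-! ## (S2) -/

/-- **DICT** for `𝒮 = H884.splitPart`, `p ≥ 5` (leaf `H103.S2.DictFor`). -/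
def Dict5Statement : Prop :=
  ∀ (p M' : ℕ) [NeZero M'] [NeZero p] [NeZero (p * M')], p.Prime → 5 ≤ p → ¬ p ∣ M' →
    ∀ A : ValuationSubring (AlgebraicClosure ℚ), A.LiesOverPrime p →
      H103.S2.DictFor p M' A (splitPart p M' A)

/-- **NC** (norm contraction), `p ≥ 5` (leaf `H103.S2.NCFor`). -/
def NC5Statement : Prop :=
  ∀ (p M' : ℕ) [NeZero M'] [NeZero p] [NeZero (p * M')], p.Prime → 5 ≤ p → ¬ p ∣ M' →
    ∀ A : ValuationSubring (AlgebraicClosure ℚ), A.LiesOverPrime p → H103.S2.NCFor p M' A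

/-- **NCX** = DICT + NC in one leaf, `p ≥ 5` (leaf `H103.S2.NCXStatement`). -/
def NCX5Statement : Prop :=
  ∀ (p M' : ℕ) [NeZero M'] [NeZero p] [NeZero (p * M')], p.Prime → 5 ≤ p → ¬ p ∣ M' →
    ∀ A : ValuationSubring (AlgebraicClosure ℚ), A.LiesOverPrime p →
      H103.S2.NCXStatement p M' A (splitPart p M' A)

theorem ncx5_of (hD : Dict5Statement) (hNC : NC5Statement) : NCX5Statement :=
  fun p M' _ _ _ hp h5 hpM A hA =>
    H103.S2.ncx_of p M' A _ (hD p M' hp h5 hpM A hA) (hNC p M' hp h5 hpM A hA)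

/-- **(S2) for `p ≥ 5`.** -/
def S2Statement5 : Prop :=
  ∀ (p M' : ℕ) [NeZero M'] [NeZero p] [NeZero (p * M')], p.Prime → 5 ≤ p → ¬ p ∣ M' →
    ∀ A : ValuationSubring (AlgebraicClosure ℚ), A.LiesOverPrime p →
      S2For p M' A (splitPart p M' A)

theorem s2Statement5_of_s2 (h : S2Statement) : S2Statement5 :=
  fun p M' _ _ _ hp h5 hpM A hA => h p M' hp (by omega) hpM A hA

/-- (S2), `p ≥ 5`, from NCX: ALG-p is `H224.algP_unconditional`. -/
theorem s2Statement5_of_ncx (hX : NCX5Statement) : S2Statement5 :=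
  fun p M' _ _ _ hp h5 hpM A hA =>
    H912.s2For_of_algPG_ncx
      (H883.algPStatementG_of_algPStatement H224.algP_unconditional) p M' hp (by omega) A hA _
      (hX p M' hp h5 hpM A hA)

/-- (S2), `p ≥ 5`, from DICT and NC. -/
theorem s2Statement5_of (hD : Dict5Statement) (hNC : NC5Statement) : S2Statement5 :=
  s2Statement5_of_ncx (ncx5_of hD hNC)

/-! ## (S4) -/

/-- **(S4) for `p ≥ 5`** (target of I6; `Wall.S4For` carries the hypothesis `NonEisAway`). -/
def S4Statement5 : Prop :=
  ∀ (p M' : ℕ) [NeZero M'] [NeZero p] [NeZero (p * M')], p.Prime → 5 ≤ p → ¬ p ∣ M' →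
    ∀ A : ValuationSubring (AlgebraicClosure ℚ), A.LiesOverPrime p →
      S4For p M' A (finPart p M' A)

theorem s4Statement5_of_eis (hE : EisSlopeStatement) : S4Statement5 :=
  fun p M' _ _ _ hp h5 hpM A hA => s4For_of hE p M' hp h5 hpM A hA

/-! ## The frontier -/

/-- **The four targets (`p ≥ 5`) from (S2) and (S4).** -/
theorem wallTargets5_of_open (h2 : S2Statement5) (h4 : S4Statement5) :
    WallTargets5Statement := by
  intro p M' _ _ _ hp h5 hpM A hA
  exact ⟨finPart p M' A, splitPart p M' A, H884.s1 p M' hp hpM A hA,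
    h2 p M' hp h5 hpM A hA,
    H764.I3.s3For_h884 H376.dlogOut H940.r3p5 p M' hp h5 hpM A hA,
    h4 p M' hp h5 hpM A hA⟩

/-- **S44 from (S2) and (S4) for `p ≥ 5`.** -/
theorem S44_of_s2_s4 (h2 : S2Statement5) (h4 : S4Statement5) : S44Statement :=
  Final.S44_of_targets5 (wallTargets5_of_open h2 h4)

/-- **S44 from (S2) for `p ≥ 5` and EIS.** -/
theorem S44_of_open (h2 : S2Statement5) (hE : EisSlopeStatement) : S44Statement :=
  S44_of_s2_s4 h2 (s4Statement5_of_eis hE)

/-- **S44 from NCX and EIS.** -/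
theorem S44_of_ncx (hX : NCX5Statement) (hE : EisSlopeStatement) : S44Statement :=
  S44_of_open (s2Statement5_of_ncx hX) hE

/-- **S44 from DICT, NC and EIS.** -/
theorem S44_of_frontier (hD : Dict5Statement) (hNC : NC5Statement) (hE : EisSlopeStatement) :
    S44Statement :=
  S44_of_open (s2Statement5_of hD hNC) hE

/-- **S44 from the four leaves open at 22:00Z**: DICT, NC, CORE-OUT (with `NonEisAway`), CUSP
(`p ≥ 5`).  HECKE-FUN, HECKE-NODE, UNIT-EIS, RED are plugged in by `H884.eisSlope_of_frontier5`. -/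
theorem S44_of_leaves5 (hD : Dict5Statement) (hNC : NC5Statement)
    (hCO : H704.CoreOut.CoreOutNEStatement) (hCP : CuspPurity5Statement) : S44Statement :=
  S44_of_frontier hD hNC (eisSlope_of_frontier5 hCO hCP)

/-- The same with TAME and WILD. -/
theorem S44_of_leaves5_tw (hD : Dict5Statement) (hNC : NC5Statement)
    (hT : H704.CoreOut.TameStatement) (hW : H704.CoreOut.WildStatement)
    (hCP : CuspPurity5Statement) : S44Statement :=
  S44_of_leaves5 hD hNC (H704.CoreOut.coreOutNE_of_tame_wild hT hW) hCP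

end Fermat.Agent.Ribet.H943.Final2
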