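import Fermat.Agent.Ribet.H943.AtP

/-!
# Row RIBET, piece P1q: abstract Mazur principle at `q ≠ p` (Frey form), pure algebra

`mazurPrinciple_of : Embed → ToricPackage → DetFrob → TorsionRank → NonEisenstein → Places →
EigenformOfOccurs → AlmostAllToWitness → MazurPrincipleStatement`.
-/

set_option autoImplicit false

open WeierstrassCurve WeierstrassCurve.Affine WeierstrassCurve.Affine.Point
open CuspForm ModularFormClass UpperHalfPlane ModularCurve

namespace Fermat.Agent.Ribet

open Spec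

theorem freyTorsion_nsmul (P : FreyPackage) (x : FreyTorsion P) : P.p • x = 0 := by
  apply Subtype.ext
  have h := x.2
  rw [Submodule.mem_torsionBy_iff] at h
  rw [Submodule.coe_smul_of_tower, ZeroMemClass.coe_zero, ← h, Nat.cast_smul_eq_nsmul]

/-- Bezout: if `d * q + e * p = 1` and `p • y = 0` then `d • (q • y) = y`. -/
theorem bezout_zsmul_nsmul {G : Type*} [AddCommGroup G] (y : G) (p q : ℕ) (d e : ℤ)
    (hde : d * (q : ℤ) + e * (p : ℤ) = 1) (hp : p • y = 0) : d • (q • y) = y := by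
  have h : y = d • (q • y) + e • (p • y) := by
    match_scalars
    push_cast
    linear_combination -hde
  rw [hp, smul_zero, add_zero] at h
  exact h.symm

/-- Bezout, integer version: if `d * c + e * p = 1` and `p • y = 0` then `d • (c • y) = y`. -/
theorem bezout_zsmul_zsmul {G : Type*} [AddCommGroup G] (y : G) (p : ℕ) (c d e : ℤ)
    (hde : d * c + e * (p : ℤ) = 1) (hp : p • y = 0) : d • (c • y) = y := by
  have h : y = d • (c • y) + e • (p • y) := by
    match_scalars
    push_cast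
    linear_combination -hde
  rw [hp, smul_zero, add_zero] at h
  exact h.symm

/-- Linear algebra core: an `𝔽_p`-linear involution `U` commuting with an irreducible action
is `±1`; if moreover `φ = c·U` with `c` a scalar then `det φ = c ^ 2` in rank two. -/
theorem det_eq_sq_of_involution (P : FreyPackage)
    (hirr : GaloisRepIsIrreducible (K := AlgebraicClosure ℚ) ℚ P.freyCurve P.p)
    (hdim : Module.finrank (ZMod P.p) (FreyTorsion P) = 2)
    (U : FreyTorsion P →ₗ[ZMod P.p] FreyTorsion P)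
    (hUG : ∀ (σ : GQ) (x : FreyTorsion P), U (σ • x) = σ • U x)
    (hUU : ∀ x, U (U x) = x) (φ : GQ) (c : ZMod P.p)
    (hφ : ∀ x : FreyTorsion P, φ • x = c • U x) :
    LinearMap.det (galoisRepModuleEnd (S := ℚ) (K := AlgebraicClosure ℚ) P.freyCurve P.p φ)
      = c ^ 2 := by
  haveI : Fact P.p.Prime := ⟨P.pp⟩
  have hp2 : (2 : ZMod P.p) ≠ 0 := by
    intro h
    have h2 : ((2 : ℕ) : ZMod P.p) = 0 := by exact_mod_cast h
    rw [ZMod.natCast_eq_zero_iff] at h2
    have := Nat.le_of_dvd (by norm_num) h2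
    have := P.hp5
    omega
  let Vp : Submodule (ZMod P.p) (FreyTorsion P) := LinearMap.ker (U - LinearMap.id)
  let Vm : Submodule (ZMod P.p) (FreyTorsion P) := LinearMap.ker (U + LinearMap.id)
  have hVp : ∀ x, x ∈ Vp ↔ U x = x := fun x => by
    simp only [Vp, LinearMap.mem_ker, LinearMap.sub_apply, LinearMap.id_apply, sub_eq_zero]
  have hVm : ∀ x, x ∈ Vm ↔ U x = -x := fun x => by
    simp only [Vm, LinearMap.mem_ker, LinearMap.add_apply, LinearMap.id_apply,
      add_eq_zero_iff_eq_neg]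
  have hsp : IsGaloisStable ℚ Vp := fun σ x hx => by
    rw [hVp] at hx ⊢
    rw [hUG, hx]
  have hsm : IsGaloisStable ℚ Vm := fun σ x hx => by
    rw [hVm] at hx ⊢
    rw [hUG, hx, smul_neg]
  have key : (∀ x, U x = x) ∨ (∀ x, U x = -x) := by
    rcases hirr.2 Vp hsp with hp | hp
    · rcases hirr.2 Vm hsm with hm | hm
      · exfalso
        obtain ⟨x, y, hxy⟩ := hirr.1
        have hz : ∀ z : FreyTorsion P, z = 0 := by
          intro z
          have h1 : z + U z ∈ Vp := by
            rw [hVp, map_add, hUU, add_comm]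
          rw [hp, Submodule.mem_bot] at h1
          have h2 : z ∈ Vm := by
            rw [hVm]
            exact (eq_neg_of_add_eq_zero_right h1)
          rwa [hm, Submodule.mem_bot] at h2
        exact hxy ((hz x).trans (hz y).symm)
      · right
        intro x
        exact (hVm x).1 (hm ▸ Submodule.mem_top)
    · left
      intro x
      exact (hVp x).1 (hp ▸ Submodule.mem_top)
  rcases key with h | h
  · have e : galoisRepModuleEnd (S := ℚ) (K := AlgebraicClosure ℚ) P.freyCurve P.p φ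
        = c • (LinearMap.id : FreyTorsion P →ₗ[ZMod P.p] FreyTorsion P) := by
      ext x
      rw [galoisRepModuleEnd_apply, hφ, h]
      rfl
    rw [e, LinearMap.det_smul, hdim, LinearMap.det_id, mul_one]
  · have e : galoisRepModuleEnd (S := ℚ) (K := AlgebraicClosure ℚ) P.freyCurve P.p φ
        = (-c) • (LinearMap.id : FreyTorsion P →ₗ[ZMod P.p] FreyTorsion P) := by
      ext x
      rw [galoisRepModuleEnd_apply, hφ, h]
      simp
    rw [e, LinearMap.det_smul, hdim, LinearMap.det_id, mul_one, neg_sq]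

/-- (P1q) abstract Mazur principle at `q ≠ p`, Frey form. -/
theorem mazurPrinciple_of (hE : EmbedStatement) (hT : ToricPackageStatement)
    (hDet : DetFrobStatement) (hDim : TorsionRankStatement) (hNE : NonEisensteinStatement)
    (hPl : PlacesStatement) (hR3 : EigenformOfOccursStatement)
    (hR3' : AlmostAllToWitnessStatement) : MazurPrincipleStatement := by
  intro P L q hLpos hq hqp hqL hsq hirr hmod hunr hq1
  obtain ⟨M', rfl⟩ := hqL
  have hM'pos : 0 < M' := by
    rcases Nat.eq_zero_or_pos M' with h0 | h0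
    · subst h0; simp at hLpos
    · exact h0
  rw [Nat.mul_div_cancel_left M' hq.pos]
  have hqM' : ¬ q ∣ M' := by
    rintro ⟨k, rfl⟩
    exact hsq ⟨k, by ring⟩
  haveI : NeZero M' := ⟨hM'pos.ne'⟩
  haveI : NeZero (q * M') := ⟨hLpos.ne'⟩
  haveI : Fact P.p.Prime := ⟨P.pp⟩
  obtain ⟨f, W, 𝔪, hwit⟩ := hmod
  have hwit' : P.IsCongruentWitness (q * M') f W 𝔪 := hwit
  obtain ⟨S, ι, hinj, hgal, hhecke⟩ := hE P (q * M') hirr f W 𝔪 hwit'
  obtain ⟨A, hA', φ, hφ⟩ := hPl q hq
  obtain ⟨𝒯, 𝓕, β, u, -, -, hEis, hβeq, hker, huG, -, huu, hφ𝒯⟩ :=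
    hT M' q P.p hq P.pp hqp hqM' A hA'
  have hp_tors : ∀ x, P.p • ι x = 0 := fun x => by
    rw [← map_nsmul, freyTorsion_nsmul, _root_.map_zero]
  have hfix : ∀ σ ∈ A.inertiaSubgroupIn ℚ, ∀ x, σ • ι x = ι x := fun σ hσ x => by
    rw [← hgal]
    exact congrArg ι (hunr A hA' σ hσ x)
  -- a non-Eisenstein prime puts `ι(E[p])` in the finite part
  set S' : Finset ℕ := S ∪ (q * M' * P.p).primeFactors with hS'
  obtain ⟨ℓ, hℓ, hℓS', -, hne⟩ := hNE P W hwit.2.1 hirr S'
  have hℓS : ℓ ∉ S := fun h => hℓS' (Finset.mem_union_left _ h)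
  have hℓN : ¬ ℓ ∣ q * M' * P.p := by
    intro h
    apply hℓS'
    apply Finset.mem_union_right
    rw [Nat.mem_primeFactors]
    exact ⟨hℓ, h, (Nat.mul_pos hLpos P.pp.pos).ne'⟩
  have hι𝓕 : ∀ x, ι x ∈ 𝓕 := by
    intro x
    have h1 : (W.apOfModel ℓ - ((ℓ : ℤ) + 1)) • ι x ∈ 𝓕 := by
      have h := hEis (ι x) (hp_tors x) (fun σ hσ => hfix σ hσ x) ⟨ℓ, hℓ⟩ hℓN
      rw [hhecke ⟨ℓ, hℓ⟩ hℓS x] at h
      have e : (W.apOfModel ℓ - ((ℓ : ℤ) + 1)) • ι x
          = W.apOfModel ℓ • ι x - (ℓ + 1) • ι x := by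
        rw [sub_smul]
        congr 1
      rw [e]
      exact h
    have hcop : IsCoprime (W.apOfModel ℓ - ((ℓ : ℤ) + 1)) (P.p : ℤ) := by
      rw [isCoprime_comm]
      exact (Nat.prime_iff_prime_int.mp P.pp).coprime_iff_not_dvd.2 hne
    obtain ⟨d, e, hde⟩ := hcop
    rw [← bezout_zsmul_zsmul (ι x) P.p _ d e hde (hp_tors x)]
    exact 𝓕.zsmul_mem h1 d
  by_cases hall : ∀ x, β ⟨ι x, hι𝓕 x⟩ = 0
  · exfalso
    have hι𝒯 : ∀ x, ι x ∈ 𝒯 := fun x => hker ⟨ι x, hι𝓕 x⟩ (hall x)
    have hcopq : IsCoprime (q : ℤ) (P.p : ℤ) := by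
      rw [isCoprime_comm]
      refine (Nat.prime_iff_prime_int.mp P.pp).coprime_iff_not_dvd.2 ?_
      intro h
      have h' : P.p ∣ q := by exact_mod_cast h
      exact hqp ((Nat.prime_dvd_prime_iff_eq P.pp hq).1 h').symm
    obtain ⟨d, e, hde⟩ := hcopq
    have hu : ∀ x, u (ι x) = ι (d • (φ • x)) := by
      intro x
      have h1 : φ • ι x = q • u (ι x) := hφ𝒯 φ hφ (ι x) (hι𝒯 x)
      have h2 : P.p • u (ι x) = 0 := by rw [← map_nsmul, hp_tors, _root_.map_zero]
      calc u (ι x) = d • (q • u (ι x)) := (bezout_zsmul_nsmul _ P.p q d e hde h2).symm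
        _ = d • (φ • ι x) := by rw [h1]
        _ = ι (d • (φ • x)) := by rw [map_zsmul, hgal]
    -- the involution on `E[p]`
    let U : FreyTorsion P →ₗ[ZMod P.p] FreyTorsion P :=
      (d : ZMod P.p) • galoisRepModuleEnd (S := ℚ) (K := AlgebraicClosure ℚ) P.freyCurve P.p φ
    have hUdef : ∀ x, U x = d • (φ • x) := fun x => by
      show (d : ZMod P.p) • (φ • x) = d • (φ • x)
      exact Int.cast_smul_eq_zsmul (ZMod P.p) d (φ • x)
    have hιU : ∀ x, ι (U x) = u (ι x) := fun x => by rw [hUdef, hu]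
    have hUG : ∀ (σ : GQ) (x : FreyTorsion P), U (σ • x) = σ • U x := fun σ x => by
      apply hinj
      rw [hιU, hgal, huG, hgal, hιU]
    have hUU : ∀ x, U (U x) = x := fun x => by
      apply hinj
      rw [hιU, hιU, huu _ (hι𝒯 x)]
    have hφU : ∀ x : FreyTorsion P, φ • x = (q : ZMod P.p) • U x := fun x => by
      rw [hUdef, Nat.cast_smul_eq_nsmul]
      have h3 : d • (q • (φ • x)) = φ • x :=
        bezout_zsmul_nsmul _ P.p q d e hde (freyTorsion_nsmul P _)
      rw [smul_comm] at h3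
      exact h3.symm
    have hdet := det_eq_sq_of_involution P hirr (hDim P) U hUG hUU φ (q : ZMod P.p) hφU
    rw [hDet P q hq hqp A hA' φ hφ] at hdet
    -- `q = q²` in `𝔽_p` forces `p ∣ q - 1`
    have hq0 : (q : ZMod P.p) ≠ 0 := by
      intro h
      rw [ZMod.natCast_eq_zero_iff] at h
      exact hqp ((Nat.prime_dvd_prime_iff_eq P.pp hq).1 h).symm
    have hq1' : (q : ZMod P.p) = 1 := by
      have : (q : ZMod P.p) * ((q : ZMod P.p) - 1) = 0 := by
        rw [mul_sub, mul_one, ← pow_two, ← hdet, sub_self]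
      rcases mul_eq_zero.1 this with h | h
      · exact absurd h hq0
      · exact sub_eq_zero.1 h
    apply hq1
    have : ((q - 1 : ℕ) : ZMod P.p) = 0 := by
      rw [Nat.cast_sub hq.one_le, hq1']
      simp
    exact (ZMod.natCast_eq_zero_iff _ _).1 this
  · push Not at hall
    obtain ⟨x, hx⟩ := hall
    have hocc : OccursIn M' P.p S' (fun ℓ => W.apOfModel ℓ) := by
      refine occursIn_of_pair (β ⟨ι x, hι𝓕 x⟩) hx ?_ ?_
      · rw [← map_nsmul]
        have : P.p • (⟨ι x, hι𝓕 x⟩ : 𝓕) = 0 := by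
          apply Subtype.ext
          simpa using hp_tors x
        rw [this, _root_.map_zero]
      · intro r hr
        have hrS : (r : ℕ) ∉ S := fun h => hr (Finset.mem_union_left _ h)
        have hrM : ¬ (r : ℕ) ∣ q * M' * P.p := by
          intro h
          apply hr
          apply Finset.mem_union_right
          rw [Nat.mem_primeFactors]
          exact ⟨r.2, h, (Nat.mul_pos hLpos P.pp.pos).ne'⟩
        obtain ⟨hx', hβ⟩ := hβeq r hrM ⟨ι x, hι𝓕 x⟩
        rw [← hβ, ← map_zsmul]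
        congr 1
        apply Subtype.ext
        simpa using hhecke r hrS x
    obtain ⟨g, 𝔪', hg, hmax, hp, hc⟩ := hR3 M' P.p P.pp S' (fun ℓ => W.apOfModel ℓ) hocc
    exact ⟨g, W, 𝔪', hR3' P M' hM'pos g W 𝔪' S' hg hwit.2.1 hmax hp hc⟩

end Fermat.Agent.Ribet
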