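import Fermat.Agent.Ribet.Glue
import Fermat.Agent.Ribet.Spec2

/-!
# Row 37 (S38 | S43): Mazur's principle + the HARD case  (row-lead helper943)

Ribet's level lowering at `q ≠ p`, `q ‖ L`, splits into
* `Spec.MazurPrincipleStatement` (`q ≢ 1 mod p`): the wall at `q` (`Spec.AtQOccursStatement`, the mirror
  of the wall at `p` with `p ≠ q`: inputs A2 + S18), glue `Spec.mazurPrinciple_of_walls`;
* `HardCaseStatement` (`q ≡ 1 mod p`): classically Ribet's pivot through Shimura curves
  (`Spec.RibetPivotStatement`, glue `S43_of`); Shimura-free route = Taylor's Ihara avoidance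
  (two deformation problems at `q`, unipotent and `χ ⊕ χ⁻¹`, which agree modulo `λ`), to be built
  inside the patching machine of row S59.

`S43_of_hard : MazurPrinciple → HardCase → S43` and the support form
`S43_of_wallq_hard : BLR → WALL-q → R3S → R3' → HardCase → S43` are proved here.
-/

set_option autoImplicit false

open WeierstrassCurve WeierstrassCurve.Affine WeierstrassCurve.Affine.Point
open CuspForm ModularFormClass UpperHalfPlane

namespace Fermat.Agent.Ribet.H943.Row37

open Fermat.Agent.Ribet Fermat.Agent.Ribet.Spec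

/-- (HARD)  Level lowering at `q ≠ p`, `q ‖ L`, in the case `q ≡ 1 mod p`, Frey form, general
level `L`. -/
def HardCaseStatement : Prop :=
  ∀ (P : FreyPackage) {L q : ℕ}, 0 < L → q.Prime → q ≠ P.p → q ∣ L → ¬ q ^ 2 ∣ L →
    GaloisRepIsIrreducible (K := AlgebraicClosure ℚ) ℚ P.freyCurve P.p →
    P.ModularRepOfLevel L → P.GaloisRepUnramifiedAt q → P.p ∣ q - 1 →
    P.ModularRepOfLevel (L / q)

/-- (RIBET)  Level lowering at `q ≠ p`, `q ‖ L`, Frey form, general level `L`. -/
def LevelLoweringStatement : Prop :=
  ∀ (P : FreyPackage) {L q : ℕ}, 0 < L → q.Prime → q ≠ P.p → q ∣ L → ¬ q ^ 2 ∣ L →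
    GaloisRepIsIrreducible (K := AlgebraicClosure ℚ) ℚ P.freyCurve P.p →
    P.ModularRepOfLevel L → P.GaloisRepUnramifiedAt q →
    P.ModularRepOfLevel (L / q)

theorem levelLowering_of (hMP : MazurPrincipleStatement) (hH : HardCaseStatement) :
    LevelLoweringStatement := by
  intro P L q hL hq hqp hqL hsq hirr hmod hunr
  by_cases h1 : P.p ∣ q - 1
  · exact hH P hL hq hqp hqL hsq hirr hmod hunr h1
  · exact hMP P hL hq hqp hqL hsq hirr hmod hunr h1

/-- **S43 from level lowering at general level.** -/
theorem S43_of_levelLowering (hLL : LevelLoweringStatement) : S43Statement := by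
  intro P N q hcond hq _ hqp hqN hirr hmod hunr
  have hsq : ¬ q ^ 2 ∣ N := hcond.sq_not_dvd hq
  exact ⟨N / q, Nat.div_dvd_of_dvd hqN, not_dvd_div_of_sq_not_dvd hq hqN hsq,
    hLL P hcond.pos hq hqp hqN hsq hirr hmod hunr⟩

/-- **S43 from Mazur's principle and the hard case.** -/
theorem S43_of_hard (hMP : MazurPrincipleStatement) (hH : HardCaseStatement) : S43Statement :=
  S43_of_levelLowering (levelLowering_of hMP hH)

/-- **S43 from the wall at `q` (support form) and the hard case.** -/
theorem S43_of_wallq_hard (hE : EmbedStatement) (hWall : AtQOccursStatement)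
    (hR3 : EigenformOfOccursAwayStatement) (hR3' : AlmostAllToWitnessStatement)
    (hH : HardCaseStatement) : S43Statement :=
  S43_of_hard (mazurPrinciple_of_walls hE hWall hR3 hR3') hH

/-- The classical route to the hard case: auxiliary prime, level raising, old/new dichotomy,
Ribet's pivot and Mazur's principle at the auxiliary prime (extracted from `S43_of`; here only
the statement that the pivot chain yields S43). -/
theorem S43_of_pivot (hMP : MazurPrincipleStatement) (hAux : AuxPrimeStatement)
    (hLR : LevelRaisingStatement) (hON : OldNewStatement) (hPiv : RibetPivotStatement)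
    (h05 : S05Statement) (hBad : FreyBadPrimeStatement) : S43Statement :=
  S43_of hMP hAux hLR hON hPiv h05 hBad

end Fermat.Agent.Ribet.H943.Row37
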