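import Fermat.Agent.Ribet.Glue

/-!
# Row RIBET, piece P1p: abstract Mazur-Ribet at `p` (Frey form), pure algebra

`S44_of_atP : Embed → AtPPackage → NotMultiplicativeType → Places → EigenformOfOccurs →
AlmostAllToWitness → S44Statement`.
-/

set_option autoImplicit false

open WeierstrassCurve WeierstrassCurve.Affine WeierstrassCurve.Affine.Point
open CuspForm ModularFormClass UpperHalfPlane ModularCurve

namespace Fermat.Agent.Ribet

open Spec

/-- A nonzero element of a product has a nonzero coordinate which inherits torsion and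
eigen-properties: packaged as `OccursIn`. -/
theorem occursIn_of_pair {M p : ℕ} [NeZero M] {S : Finset ℕ} {a : ℕ → ℤ}
    (y : JZero M × JZero M) (hy : y ≠ 0) (hp : p • y = 0)
    (hT : ∀ ℓ : Nat.Primes, (ℓ : ℕ) ∉ S →
      (heckeOperatorBar M ℓ y.1, heckeOperatorBar M ℓ y.2) = a ℓ • y) :
    OccursIn M p S a := by
  have hp1 : p • y.1 = 0 := by simpa using congrArg Prod.fst hp
  have hp2 : p • y.2 = 0 := by simpa using congrArg Prod.snd hp
  by_cases h1 : y.1 = 0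
  · have h2 : y.2 ≠ 0 := by
      intro h2
      exact hy (Prod.ext h1 h2)
    refine ⟨y.2, h2, hp2, fun ℓ hℓ => ?_⟩
    simpa using congrArg Prod.snd (hT ℓ hℓ)
  · refine ⟨y.1, h1, hp1, fun ℓ hℓ => ?_⟩
    simpa using congrArg Prod.fst (hT ℓ hℓ)

/-- (P1p) abstract Mazur-Ribet at `p`, Frey form. -/
theorem S44_of_atP (hE : EmbedStatement) (hA : AtPPackageStatement)
    (hNMT : NotMultiplicativeTypeStatement) (hPl : PlacesStatement)
    (hR3 : EigenformOfOccursStatement) (hR3' : AlmostAllToWitnessStatement) :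
    S44Statement := by
  intro P N hcond hpN hirr hmod
  have hsq : ¬ P.p ^ 2 ∣ N := hcond.sq_not_dvd P.pp
  refine ⟨N / P.p, Nat.div_dvd_of_dvd hpN, not_dvd_div_of_sq_not_dvd P.pp hpN hsq, ?_⟩
  have hpabc := hcond.p_dvd_abc hpN
  have hNpos := hcond.pos
  obtain ⟨M', rfl⟩ := hpN
  have hM'pos : 0 < M' := by
    rcases Nat.eq_zero_or_pos M' with h0 | h0
    · subst h0; simp at hNpos
    · exact h0
  rw [Nat.mul_div_cancel_left M' P.pp.pos]
  have hpM' : ¬ P.p ∣ M' := by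
    rintro ⟨k, rfl⟩
    exact hsq ⟨k, by ring⟩
  haveI : NeZero M' := ⟨hM'pos.ne'⟩
  haveI : NeZero (P.p * M') := ⟨hNpos.ne'⟩
  obtain ⟨f, W, 𝔪, hwit⟩ := hmod
  have hwit' : P.IsCongruentWitness (P.p * M') f W 𝔪 := hwit
  obtain ⟨S, ι, hinj, hgal, hhecke⟩ := hE P (P.p * M') hirr f W 𝔪 hwit'
  obtain ⟨A, hA', -⟩ := hPl P.p P.pp
  obtain ⟨𝒲, 𝓕, β, -, htors, hmult, hβeq, hker, hflat⟩ := hA P M' hpM' hpabc A hA'
  have hι𝓕 : ∀ x, ι x ∈ 𝓕 := hflat ι hgal
  by_cases hall : ∀ x, β ⟨ι x, hι𝓕 x⟩ = 0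
  · exfalso
    apply hNMT P A hA'
    intro σ hσ c hc x
    have hx𝒲 : ι x ∈ 𝒲 := hker ⟨ι x, hι𝓕 x⟩ (hall x)
    have h1 := hmult σ hσ c hc (ι x) hx𝒲
    apply hinj
    rw [hgal, h1, map_nsmul]
  · push Not at hall
    obtain ⟨x, hx⟩ := hall
    set S' : Finset ℕ := S ∪ (M' * P.p).primeFactors with hS'
    have hocc : OccursIn M' P.p S' (fun ℓ => W.apOfModel ℓ) := by
      refine occursIn_of_pair (β ⟨ι x, hι𝓕 x⟩) hx ?_ ?_
      · rw [← map_nsmul]
        have : P.p • (⟨ι x, hι𝓕 x⟩ : 𝓕) = 0 := by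
          apply Subtype.ext
          simpa using htors (ι x) (hι𝓕 x)
        rw [this, _root_.map_zero]
      · intro ℓ hℓ
        have hℓS : (ℓ : ℕ) ∉ S := fun h => hℓ (Finset.mem_union_left _ h)
        have hℓM : ¬ (ℓ : ℕ) ∣ M' * P.p := by
          intro h
          apply hℓ
          apply Finset.mem_union_right
          rw [Nat.mem_primeFactors]
          exact ⟨ℓ.2, h, (Nat.mul_pos hM'pos P.pp.pos).ne'⟩
        obtain ⟨hx', hβ⟩ := hβeq ℓ hℓM ⟨ι x, hι𝓕 x⟩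
        rw [← hβ, ← map_zsmul]
        congr 1
        apply Subtype.ext
        simpa using hhecke ℓ hℓS x
    obtain ⟨g, 𝔪', hg, hmax, hp, hc⟩ := hR3 M' P.p P.pp S' (fun ℓ => W.apOfModel ℓ) hocc
    exact ⟨g, W, 𝔪', hR3' P M' hM'pos g W 𝔪' S' hg hwit.2.1 hmax hp hc⟩

end Fermat.Agent.Ribet
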