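import Fermat.Agent.Ribet.H723.Row37Split
import Fermat.Agent.Ribet.H727.HardMin

/-!
# Row 37 (S43): the OFFICIAL targets of the row  (row-lead helper943, 21:40Z)

    S43  ⇐  S44 (row 38)  +  MP⁺ (WALL-q, sharp exclusion)  +  S05 (landed)  +  HARD-core

* `EasyAt P r`        : `r ≢ 1 mod p`  OR  Frobenius at `r` is not scalar on `E[p]`
                        (the primes at which Mazur's principle applies, `H723.FrobScalarAt`);
* `HardCoreStatement` : `H727.HardCaseMinFlatFor EasyAt` — level lowering at an odd prime `q ≠ p`
                        of a CONDUCTOR level `L` (squarefree), PRIME TO `p`, ALL of whose odd primes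
                        `r ≠ p` are hard (`r ≡ 1 mod p` and Frobenius at `r` scalar on `E[p]`);
                        conclusion as in frozen S43 (some `M ∣ L` prime to `q`).
                        This is the target of the Ihara-avoidance architect (helper995).
* `S43_of_core`       : the glue (generic glue of helper727, split of helper723).
-/

set_option autoImplicit false

open WeierstrassCurve WeierstrassCurve.Affine WeierstrassCurve.Affine.Point
open CuspForm ModularFormClass UpperHalfPlane

namespace Fermat.Agent.Ribet.H943.Row37b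

open Fermat.Agent.Ribet Fermat.Agent.Ribet.Spec

/-- The primes at which Mazur's principle applies. -/
def EasyAt (P : FreyPackage) (r : ℕ) : Prop :=
  ¬ P.p ∣ r - 1 ∨ ¬ H723.FrobScalarAt P r

/-- **HARD-core**: the official target of the hard case. -/
def HardCoreStatement : Prop :=
  H727.HardCaseMinFlatFor EasyAt

/-- Unfolded form of `HardCoreStatement`. -/
theorem hardCoreStatement_iff :
    HardCoreStatement ↔
      ∀ (P : FreyPackage) {L q : ℕ}, P.IsConductorLevel L → ¬ P.p ∣ L →
        (∀ r : ℕ, r.Prime → r ∣ L → r ≠ 2 → r ≠ P.p →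
          ¬ (¬ P.p ∣ r - 1 ∨ ¬ H723.FrobScalarAt P r)) →
        q.Prime → q ≠ 2 → q ≠ P.p → q ∣ L →
        GaloisRepIsIrreducible (K := AlgebraicClosure ℚ) ℚ P.freyCurve P.p →
        P.ModularRepOfLevel L →
        ∃ M : ℕ, M ∣ L ∧ ¬ q ∣ M ∧ P.ModularRepOfLevel M :=
  Iff.rfl

/-- The sharp Mazur principle (any `q`) gives Mazur's principle for the easy primes at
conductor levels (frozen S05 provides the unramifiedness). -/
theorem mazurPrincipleFor_easy (hMP : H723.MazurPrinciplePlusStatement) (h05 : S05Statement) :
    H727.MazurPrincipleFor EasyAt :=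
  fun P _ _ hL hr hr2 hrp hrL hirr hmod hE =>
    hMP P hL.pos hr hrp hrL (hL.sq_not_dvd hr) hirr hmod (h05 P hr hr2 hrp) hE

/-- The hard cases on main imply the core. -/
theorem hardCore_of_hardScalar (hH : H723.HardScalarStatement) (h05 : S05Statement) :
    HardCoreStatement := by
  intro P L q hL _ hne hq hq2 hqp hqL hirr hmod
  have hsq : ¬ q ^ 2 ∣ L := hL.sq_not_dvd hq
  have hE : ¬ EasyAt P q := hne q hq hqL hq2 hqp
  have h1 : P.p ∣ q - 1 := by
    by_contra h
    exact hE (Or.inl h)
  have h2 : H723.FrobScalarAt P q := by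
    by_contra h
    exact hE (Or.inr h)
  exact ⟨L / q, Nat.div_dvd_of_dvd hqL, not_dvd_div_of_sq_not_dvd hq hqL hsq,
    hH P hL.pos hq hqp hqL hsq hirr hmod (h05 P hq hq2 hqp) h1 h2⟩

/-- **S43 from S44, the sharp Mazur principle, S05 and the hard core.** -/
theorem S43_of_core (h44 : S44Statement) (hMP : H723.MazurPrinciplePlusStatement)
    (h05 : S05Statement) (hH : HardCoreStatement) : S43Statement :=
  H727.S43_of_easyHardFlat EasyAt h44 (mazurPrincipleFor_easy hMP h05) hH

end Fermat.Agent.Ribet.H943.Row37b
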