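import Fermat.Agent.Ribet.H943.Final2
import Fermat.Agent.Ribet.H558.S2Five
import Fermat.Agent.Ribet.H399.CuspGen
import Fermat.Agent.Ribet.H912.TameFixed
import Fermat.Agent.Ribet.H132.WildOfFrame
import Fermat.Agent.Ribet.H712.WildFrame

/-!
# Row 38: `S44Statement`, UNCONDITIONAL — plain chain top for consumers (helper943)

`s44 : Ribet.Spec.S44Statement` is the body of `Fermat.Agent.S44.result` as a statement of the
row.  Consumers (row 37 `S43`, `S45`) import THIS file, never `Fermat/Agent/S44.lean`.
-/

set_option autoImplicit false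

namespace Fermat.Agent.Ribet.H943.S44Top

/-- **S44** (Mazur–Ribet, Frey form), unconditional. -/
theorem s44 : Fermat.Agent.Ribet.Spec.S44Statement :=
  Fermat.Agent.Ribet.H943.Final2.S44_of_open Fermat.Agent.Ribet.H558.s2Five
    (Fermat.Agent.Ribet.H884.eisSlope_of_frontier5
      (Fermat.Agent.Ribet.H704.CoreOut.coreOutNE_of_tame_wild
        (Fermat.Agent.Ribet.H967.Tame.tame_of_fixed Fermat.Agent.Ribet.H912.tameFixed)
        (Fermat.Agent.Ribet.H132.wild_of_frame Fermat.Agent.Ribet.H712.Frame.wildFrame))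
      Fermat.Agent.Ribet.H399.cuspPurity5Leaf)

end Fermat.Agent.Ribet.H943.S44Top
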